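/-
Program U (S52), leaf (H) = HIT-root.  Part 1: Hensel lifting modulo `X ^ k` for the quartic
`Ψ(p) = 3 p⁴ + 6 a p² + 12 b p − a²` over `ℝ[X]` (the 3-division quartic with polynomial coefficients).
Mathlib only.
-/
import Mathlib

set_option autoImplicit false

open Polynomial

namespace Fermat.Agent.U5

/-- The quartic `3 p⁴ + 6 a p² + 12 b p − a²` as a polynomial operation. -/
noncomputable def u5hPsi {R : Type*} [CommRing R] (a b p : R[X]) : R[X] :=
  C 3 * p ^ 4 + C 6 * a * p ^ 2 + C 12 * b * p - a ^ 2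

/-- Its formal derivative in `p`. -/
noncomputable def u5hPsiD {R : Type*} [CommRing R] (a b p : R[X]) : R[X] :=
  C 12 * p ^ 3 + C 12 * a * p + C 12 * b

theorem u5h_psi_taylor {R : Type*} [CommRing R] (a b p d : R[X]) :
    u5hPsi a b (p + d) = u5hPsi a b p + d * u5hPsiD a b p +
      d ^ 2 * (C 18 * p ^ 2 + C 12 * p * d + C 3 * d ^ 2 + C 6 * a) := by
  simp only [u5hPsi, u5hPsiD]
  have h3 : (C 3 : R[X]) = 3 := C_ofNat 3
  have h6 : (C 6 : R[X]) = 6 := C_ofNat 6
  have h12 : (C 12 : R[X]) = 12 := C_ofNat 12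
  have h18 : (C 18 : R[X]) = 18 := C_ofNat 18
  rw [h3, h6, h12, h18]
  ring

theorem u5h_eval_psi {R : Type*} [CommRing R] (a b p : R[X]) (s : R) :
    (u5hPsi a b p).eval s = 3 * (p.eval s) ^ 4 + 6 * a.eval s * (p.eval s) ^ 2 +
      12 * b.eval s * p.eval s - (a.eval s) ^ 2 := by
  simp [u5hPsi]

theorem u5h_eval_psiD {R : Type*} [CommRing R] (a b p : R[X]) (s : R) :
    (u5hPsiD a b p).eval s = 12 * (p.eval s) ^ 3 + 12 * a.eval s * p.eval s + 12 * b.eval s := by
  simp [u5hPsiD]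

/-- Hensel lifting: a simple root `r` of the quartic at `s = 0` lifts to a polynomial `p` of degree `< k`
with `Ψ(p) ≡ 0 mod X ^ k`. -/
theorem u5h_hensel {K : Type*} [Field K] (a b : K[X]) (r : K)
    (h0 : 3 * r ^ 4 + 6 * a.eval 0 * r ^ 2 + 12 * b.eval 0 * r - (a.eval 0) ^ 2 = 0)
    (h1 : 12 * r ^ 3 + 12 * a.eval 0 * r + 12 * b.eval 0 ≠ 0) :
    ∀ k : ℕ, ∃ p : K[X], p.natDegree < k + 1 ∧ p.eval 0 = r ∧ X ^ (k + 1) ∣ u5hPsi a b p := by
  intro k
  induction k with
  | zero =>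
    refine ⟨C r, by simp, by simp, ?_⟩
    rw [zero_add, pow_one, X_dvd_iff, coeff_zero_eq_eval_zero, u5h_eval_psi]
    simpa using h0
  | succ k ih =>
    obtain ⟨p, hdeg, hp0, q, hq⟩ := ih
    have hD : (u5hPsiD a b p).eval 0 ≠ 0 := by
      rw [u5h_eval_psiD, hp0]; exact h1
    set c : K := - q.eval 0 / (u5hPsiD a b p).eval 0 with hc
    refine ⟨p + C c * X ^ (k + 1), ?_, ?_, ?_⟩
    · refine lt_of_le_of_lt (natDegree_add_le _ _) ?_
      refine max_lt (by omega) ?_
      exact lt_of_le_of_lt (natDegree_C_mul_X_pow_le c (k + 1)) (by omega)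
    · simp [hp0]
    · rw [u5h_psi_taylor, hq]
      have hX : X ∣ q + C c * u5hPsiD a b p := by
        rw [X_dvd_iff, coeff_zero_eq_eval_zero]
        simp only [eval_add, eval_mul, eval_C]
        rw [hc]; field_simp; ring
      obtain ⟨q', hq'⟩ := hX
      have e1 : X ^ (k + 1) * q + C c * X ^ (k + 1) * u5hPsiD a b p =
          X ^ (k + 1 + 1) * q' := by
        have : X ^ (k + 1) * q + C c * X ^ (k + 1) * u5hPsiD a b p =
            X ^ (k + 1) * (q + C c * u5hPsiD a b p) := by ring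
        rw [this, hq']; ring
      rw [e1]
      refine dvd_add (dvd_mul_right _ _) ?_
      refine Dvd.dvd.mul_right ?_ _
      rw [mul_pow, ← pow_mul]
      refine Dvd.dvd.mul_left (pow_dvd_pow X (by omega)) _

end Fermat.Agent.U5
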