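/-
Program U (S52), leaf (H) = HIT-root.  Part 3: localisation of the real roots of
`Φ(s,ξ) = 3ξ⁴ + 6a(s)ξ² + 12b(s)ξ − a(s)²` for small `s`: every real root lies within `C·|s|¹¹` of one of
at most four polynomial branches `p_r(s)` of degree `≤ 10`.  No implicit function theorem, no derivatives.
Mathlib only.
-/
import Mathlib
import Fermat.Agent.U5.Hit.Hensel

set_option autoImplicit false

open Polynomial Filter Topology

namespace Fermat.Agent.U5

/-- The quartic as a real function of `(s, ξ)`. -/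
noncomputable def u5hPhi (a b : ℝ[X]) (s ξ : ℝ) : ℝ :=
  3 * ξ ^ 4 + 6 * a.eval s * ξ ^ 2 + 12 * b.eval s * ξ - (a.eval s) ^ 2

/-- The divided difference of `Φ(s,·)`. -/
noncomputable def u5hLam (a b : ℝ[X]) (s ξ η : ℝ) : ℝ :=
  3 * (ξ ^ 3 + ξ ^ 2 * η + ξ * η ^ 2 + η ^ 3) + 6 * a.eval s * (ξ + η) + 12 * b.eval s

theorem u5hPhi_sub (a b : ℝ[X]) (s ξ η : ℝ) :
    u5hPhi a b s ξ - u5hPhi a b s η = (ξ - η) * u5hLam a b s ξ η := by
  simp only [u5hPhi, u5hLam]; ring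

theorem u5hPhi_eval (a b p : ℝ[X]) (s : ℝ) : u5hPhi a b s (p.eval s) = (u5hPsi a b p).eval s := by
  rw [u5h_eval_psi, u5hPhi]

/-- Root bound. -/
theorem u5h_root_bound (a b : ℝ[X]) (M : ℝ) (hM : 0 ≤ M) (s ξ : ℝ) (ha : |a.eval s| ≤ M)
    (hb : |b.eval s| ≤ M) (h : u5hPhi a b s ξ = 0) : |ξ| ≤ 1 + 6 * M + M ^ 2 := by
  by_contra hcon
  rw [not_le] at hcon
  set x := |ξ| with hx
  have hx0 : 0 ≤ x := abs_nonneg _
  have hx1 : 1 < x := by nlinarith
  have e4 : ξ ^ 4 = x ^ 4 := by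
    rw [hx]; rw [show (4 : ℕ) = 2 * 2 by norm_num, pow_mul, pow_mul, sq_abs]
  have e2 : ξ ^ 2 = x ^ 2 := by rw [hx, sq_abs]
  have hle : 3 * x ^ 4 ≤ 6 * M * x ^ 2 + 12 * M * x + M ^ 2 := by
    have h1 : 3 * ξ ^ 4 = -(6 * a.eval s * ξ ^ 2) - 12 * b.eval s * ξ + (a.eval s) ^ 2 := by
      rw [u5hPhi] at h; linarith
    have ha' := abs_le.mp ha
    have hb' := abs_le.mp hb
    have hξ : |ξ| = x := rfl
    have t1 : -(6 * a.eval s * ξ ^ 2) ≤ 6 * M * x ^ 2 := by
      rw [e2]; nlinarith [sq_nonneg x]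
    have t2 : -(12 * b.eval s * ξ) ≤ 12 * M * x := by
      have : |b.eval s * ξ| ≤ M * x := by
        rw [abs_mul]; exact mul_le_mul hb le_rfl (abs_nonneg _) hM
      have := (abs_le.mp this).1
      linarith
    have t3 : (a.eval s) ^ 2 ≤ M ^ 2 := by
      rw [← sq_abs]; exact pow_le_pow_left₀ (abs_nonneg _) ha 2
    rw [← e4]; linarith
  have hy : (1 + 6 * M + M ^ 2) * x ≤ x ^ 2 := by nlinarith
  have hy1 : x ≤ x ^ 2 := by nlinarith
  have hxx : x ^ 4 = x ^ 2 * x ^ 2 := by ring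
  nlinarith [sq_nonneg x, sq_nonneg M, mul_nonneg hM hx0, mul_nonneg hM (sq_nonneg x),
    mul_nonneg (sq_nonneg M) (sq_nonneg x)]

/-- Away from its real zeros (with prescribed radii) and on a bounded set, a continuous function is
bounded below. -/
theorem u5h_away (ψ : ℝ → ℝ) (hψ : Continuous ψ) (R : Finset ℝ) (δ : ℝ → ℝ)
    (hδ : ∀ r ∈ R, 0 < δ r) (hroots : ∀ ξ, ψ ξ = 0 → ξ ∈ R) (B : ℝ) :
    ∃ m : ℝ, 0 < m ∧ ∀ ξ, |ξ| ≤ B → (∀ r ∈ R, δ r ≤ |ξ - r|) → m ≤ |ψ ξ| := by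
  set K : Set ℝ := {ξ | |ξ| ≤ B ∧ ∀ r ∈ R, δ r ≤ |ξ - r|} with hK
  have hKc : IsCompact K := by
    have hsub : K ⊆ Set.Icc (-B) B := fun ξ hξ => abs_le.mp hξ.1
    refine IsCompact.of_isClosed_subset isCompact_Icc ?_ hsub
    have h1 : IsClosed {ξ : ℝ | |ξ| ≤ B} := isClosed_le continuous_abs continuous_const
    have h2 : IsClosed {ξ : ℝ | ∀ r ∈ R, δ r ≤ |ξ - r|} := by
      have : {ξ : ℝ | ∀ r ∈ R, δ r ≤ |ξ - r|} = ⋂ r ∈ R, {ξ : ℝ | δ r ≤ |ξ - r|} := by
        ext ξ; simp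
      rw [this]
      refine isClosed_biInter fun r _ => ?_
      exact isClosed_le continuous_const (continuous_abs.comp (continuous_id.sub continuous_const))
    exact h1.inter h2
  by_cases hne : K.Nonempty
  · obtain ⟨ξ₀, hξ₀, hmin⟩ := hKc.exists_isMinOn hne (continuous_abs.comp hψ).continuousOn
    refine ⟨|ψ ξ₀|, ?_, fun ξ h1 h2 => hmin ⟨h1, h2⟩⟩
    rw [abs_pos]
    intro h0
    have hr := hroots ξ₀ h0
    have := hξ₀.2 ξ₀ hr
    have hpos := hδ ξ₀ hr
    simp at this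
    linarith
  · refine ⟨1, one_pos, fun ξ h1 h2 => ?_⟩
    exact absurd ⟨ξ, h1, h2⟩ hne

/-- Lower bound for the divided difference near `(0, r, r)` at a simple root. -/
theorem u5h_lam_lower (a b : ℝ[X]) (r : ℝ)
    (h1 : 12 * r ^ 3 + 12 * a.eval 0 * r + 12 * b.eval 0 ≠ 0) :
    ∃ δ : ℝ, 0 < δ ∧ ∀ s ξ η : ℝ, |s| < δ → |ξ - r| < δ → |η - r| < δ →
      |12 * r ^ 3 + 12 * a.eval 0 * r + 12 * b.eval 0| / 2 ≤ |u5hLam a b s ξ η| := by
  set d := 12 * r ^ 3 + 12 * a.eval 0 * r + 12 * b.eval 0 with hd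
  have hcont : Continuous fun z : ℝ × ℝ × ℝ => u5hLam a b z.1 z.2.1 z.2.2 := by
    unfold u5hLam
    have ha : Continuous fun z : ℝ × ℝ × ℝ => a.eval z.1 := a.continuous.comp continuous_fst
    have hb : Continuous fun z : ℝ × ℝ × ℝ => b.eval z.1 := b.continuous.comp continuous_fst
    fun_prop
  have hval : u5hLam a b 0 r r = d := by rw [u5hLam, hd]; ring
  have hpos : 0 < |d| / 2 := by positivity
  have hev : ∀ᶠ z : ℝ × ℝ × ℝ in 𝓝 (0, r, r),
      |u5hLam a b z.1 z.2.1 z.2.2 - u5hLam a b 0 r r| < |d| / 2 := by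
    have := (hcont.continuousAt (x := ((0 : ℝ), r, r)))
    have h2 := Metric.continuousAt_iff.mp this (|d| / 2) hpos
    obtain ⟨ε, hε, h3⟩ := h2
    refine Metric.eventually_nhds_iff.mpr ⟨ε, hε, fun z hz => ?_⟩
    have := h3 hz
    rwa [Real.dist_eq] at this
  obtain ⟨ε, hε, h3⟩ := Metric.eventually_nhds_iff.mp hev
  refine ⟨ε, hε, fun s ξ η hs hξ hη => ?_⟩
  have hz : dist ((s, ξ, η) : ℝ × ℝ × ℝ) (0, r, r) < ε := by
    rw [Prod.dist_eq, Prod.dist_eq]
    simp only [Real.dist_eq, sub_zero]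
    exact max_lt hs (max_lt hξ hη)
  have h4 := h3 hz
  simp only at h4
  rw [hval] at h4
  have h5 : |d| - |u5hLam a b s ξ η| ≤ |u5hLam a b s ξ η - d| := by
    have := abs_sub_abs_le_abs_sub d (u5hLam a b s ξ η)
    rwa [abs_sub_comm] at this
  linarith


/-- Continuity of a real polynomial at `0`, in `ε`-`δ` form with a bound. -/
theorem u5h_poly_near (g : ℝ[X]) (ε : ℝ) (hε : 0 < ε) :
    ∀ᶠ s in 𝓝 (0 : ℝ), |g.eval s - g.eval 0| < ε := by
  have h := (g.continuous.continuousAt (x := (0 : ℝ)))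
  obtain ⟨δ, hδ, h3⟩ := Metric.continuousAt_iff.mp h ε hε
  refine Metric.eventually_nhds_iff.mpr ⟨δ, hδ, fun z hz => ?_⟩
  have := h3 hz
  rwa [Real.dist_eq] at this

theorem u5h_poly_bdd (g : ℝ[X]) : ∀ᶠ s in 𝓝 (0 : ℝ), |g.eval s| ≤ |g.eval 0| + 1 := by
  filter_upwards [u5h_poly_near g 1 one_pos] with s hs
  have := abs_sub_abs_le_abs_sub (g.eval s) (g.eval 0)
  linarith

/-- **Localisation of the real roots** for small `s`. -/
theorem u5h_localise (a b : ℝ[X])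
    (hsimple : ∀ r : ℝ, u5hPhi a b 0 r = 0 →
      12 * r ^ 3 + 12 * a.eval 0 * r + 12 * b.eval 0 ≠ 0) :
    ∃ (R : Finset ℝ) (P : ℝ → ℝ[X]) (s₀ C : ℝ), 0 < s₀ ∧ 0 ≤ C ∧ R.card ≤ 4 ∧
      (∀ r ∈ R, (P r).natDegree ≤ 10) ∧
      ∀ s : ℝ, |s| < s₀ → ∀ ξ : ℝ, u5hPhi a b s ξ = 0 →
        ∃ r ∈ R, |ξ - (P r).eval s| ≤ C * |s| ^ 11 := by
  classical
  set α := a.eval 0 with hα
  set β := b.eval 0 with hβ
  -- the quartic at `s = 0` as a polynomial
  set ψ : ℝ[X] := C 3 * X ^ 4 + C (6 * α) * X ^ 2 + C (12 * β) * X - C (α ^ 2) with hψ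
  have hψeval : ∀ ξ, ψ.eval ξ = u5hPhi a b 0 ξ := by
    intro ξ; simp [hψ, u5hPhi, hα, hβ]
  have hψdeg : ψ.natDegree ≤ 4 := by rw [hψ]; compute_degree
  have hψne : ψ ≠ 0 := by
    intro h
    have : ψ.coeff 4 = 3 := by
      rw [hψ]
      simp only [coeff_sub, coeff_add, coeff_C_mul, coeff_X_pow, coeff_X, coeff_C]
      norm_num
    rw [h] at this; simp at this
  set R : Finset ℝ := ψ.roots.toFinset with hR
  have hRcard : R.card ≤ 4 :=
    (Multiset.toFinset_card_le _).trans ((Polynomial.card_roots' ψ).trans hψdeg)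
  have hRmem : ∀ ξ, u5hPhi a b 0 ξ = 0 ↔ ξ ∈ R := by
    intro ξ
    rw [hR, Multiset.mem_toFinset, Polynomial.mem_roots hψne, IsRoot, hψeval]
  -- Hensel branches
  have hH : ∀ r ∈ R, ∃ p : ℝ[X], p.natDegree < 10 + 1 ∧ p.eval 0 = r ∧
      X ^ (10 + 1) ∣ u5hPsi a b p := by
    intro r hr
    have h0 := (hRmem r).mpr hr
    have h1 := hsimple r h0
    rw [u5hPhi] at h0
    exact u5h_hensel a b r h0 h1 10
  choose! P hPdeg hP0 hPdvd using hH
  choose! Q hQ using hPdvd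
  -- lower bounds for the divided differences
  have hL : ∀ r ∈ R, ∃ δ : ℝ, 0 < δ ∧ ∀ s ξ η : ℝ, |s| < δ → |ξ - r| < δ → |η - r| < δ →
      |12 * r ^ 3 + 12 * a.eval 0 * r + 12 * b.eval 0| / 2 ≤ |u5hLam a b s ξ η| := by
    intro r hr
    exact u5h_lam_lower a b r (hsimple r ((hRmem r).mpr hr))
  choose! δ hδpos hδ using hL
  -- constants
  set cr : ℝ → ℝ := fun r => |12 * r ^ 3 + 12 * a.eval 0 * r + 12 * b.eval 0| / 2 with hcr
  have hcrpos : ∀ r ∈ R, 0 < cr r := by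
    intro r hr
    have := hsimple r ((hRmem r).mpr hr)
    simp only [hcr]; positivity
  set M : ℝ := (|α| + 1) + (|β| + 1) with hM
  have hM0 : 0 ≤ M := by positivity
  set B : ℝ := 1 + 6 * M + M ^ 2 with hB
  have hB0 : 0 ≤ B := by positivity
  obtain ⟨m, hmpos, hm⟩ := u5h_away (fun ξ => u5hPhi a b 0 ξ)
    (by unfold u5hPhi; fun_prop) R δ hδpos (fun ξ h => (hRmem ξ).mp h) B
  set Ma : ℝ := |a.divX.eval 0| + 1 with hMa
  set Mb : ℝ := |b.divX.eval 0| + 1 with hMb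
  have hMa0 : 0 ≤ Ma := by positivity
  have hMb0 : 0 ≤ Mb := by positivity
  set C₁ : ℝ := 6 * Ma * B ^ 2 + 12 * Mb * B + Ma * (M + |α|) with hC₁
  have hC₁0 : 0 ≤ C₁ := by positivity
  set C : ℝ := ∑ r ∈ R, (|(Q r).eval 0| + 1) / cr r with hC
  have hC0 : 0 ≤ C := by
    refine Finset.sum_nonneg fun r hr => ?_
    have := hcrpos r hr
    positivity
  -- the eventual conditions
  have hev : ∀ᶠ s in 𝓝 (0 : ℝ), ∀ ξ : ℝ, u5hPhi a b s ξ = 0 →
      ∃ r ∈ R, |ξ - (P r).eval s| ≤ C * |s| ^ 11 := by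
    have e1 := u5h_poly_bdd a
    have e2 := u5h_poly_bdd b
    have e3 := u5h_poly_bdd a.divX
    have e4 := u5h_poly_bdd b.divX
    have e5 : ∀ᶠ s in 𝓝 (0 : ℝ), |s| * (C₁ + 1) < m := by
      have : Tendsto (fun s : ℝ => |s| * (C₁ + 1)) (𝓝 0) (𝓝 (|(0 : ℝ)| * (C₁ + 1))) :=
        ((continuous_abs.mul continuous_const).tendsto 0)
      rw [abs_zero, zero_mul] at this
      exact this.eventually (gt_mem_nhds hmpos)
    have e6 : ∀ᶠ s in 𝓝 (0 : ℝ), ∀ r ∈ R, |(P r).eval s - r| < δ r := by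
      rw [Filter.eventually_all_finset]
      intro r hr
      have := u5h_poly_near (P r) (δ r) (hδpos r hr)
      rwa [hP0 r hr] at this
    have e7 : ∀ᶠ s in 𝓝 (0 : ℝ), ∀ r ∈ R, |(Q r).eval s| ≤ |(Q r).eval 0| + 1 := by
      rw [Filter.eventually_all_finset]
      intro r _
      exact u5h_poly_bdd (Q r)
    have e8 : ∀ᶠ s in 𝓝 (0 : ℝ), ∀ r ∈ R, |s| < δ r := by
      rw [Filter.eventually_all_finset]
      intro r hr
      have : Tendsto (fun s : ℝ => |s|) (𝓝 0) (𝓝 |(0 : ℝ)|) := (continuous_abs.tendsto 0)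
      rw [abs_zero] at this
      exact this.eventually (gt_mem_nhds (hδpos r hr))
    filter_upwards [e1, e2, e3, e4, e5, e6, e7, e8] with s h1 h2 h3 h4 h5 h6 h7 h8 ξ hξ
    -- bounds on a(s), b(s)
    have ha : |a.eval s| ≤ M := by rw [hM]; have := abs_nonneg β; linarith
    have hb : |b.eval s| ≤ M := by rw [hM]; have := abs_nonneg α; linarith
    have hξB : |ξ| ≤ B := u5h_root_bound a b M hM0 s ξ ha hb hξ
    -- perturbation
    have hda : a.eval s - α = a.divX.eval s * s := by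
      have := congrArg (Polynomial.eval s) (Polynomial.divX_mul_X_add a)
      simp only [eval_add, eval_mul, eval_X, eval_C] at this
      rw [hα, ← coeff_zero_eq_eval_zero]; linarith
    have hdb : b.eval s - β = b.divX.eval s * s := by
      have := congrArg (Polynomial.eval s) (Polynomial.divX_mul_X_add b)
      simp only [eval_add, eval_mul, eval_X, eval_C] at this
      rw [hβ, ← coeff_zero_eq_eval_zero]; linarith
    have hpert : |u5hPhi a b s ξ - u5hPhi a b 0 ξ| ≤ |s| * C₁ := by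
      have e : u5hPhi a b s ξ - u5hPhi a b 0 ξ =
          s * (6 * a.divX.eval s * ξ ^ 2 + 12 * b.divX.eval s * ξ
            - a.divX.eval s * (a.eval s + α)) := by
        simp only [u5hPhi]
        rw [← hα, ← hβ]
        linear_combination (6 * ξ ^ 2 - (a.eval s + α)) * hda + (12 * ξ) * hdb
      rw [e, abs_mul]
      refine mul_le_mul_of_nonneg_left ?_ (abs_nonneg _)
      have hξ2 : ξ ^ 2 ≤ B ^ 2 := by
        rw [← sq_abs ξ]; exact pow_le_pow_left₀ (abs_nonneg _) hξB 2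
      have t1 : |6 * a.divX.eval s * ξ ^ 2| ≤ 6 * Ma * B ^ 2 := by
        rw [abs_mul, abs_mul, abs_of_nonneg (sq_nonneg ξ)]
        rw [show |(6 : ℝ)| = 6 by norm_num]
        have : |a.divX.eval s| ≤ Ma := h3
        have h0 := abs_nonneg (a.divX.eval s)
        nlinarith [sq_nonneg ξ]
      have t2 : |12 * b.divX.eval s * ξ| ≤ 12 * Mb * B := by
        rw [abs_mul, abs_mul]
        rw [show |(12 : ℝ)| = 12 by norm_num]
        have : |b.divX.eval s| ≤ Mb := h4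
        have h0 := abs_nonneg (b.divX.eval s)
        have h00 := abs_nonneg ξ
        nlinarith
      have t3 : |a.divX.eval s * (a.eval s + α)| ≤ Ma * (M + |α|) := by
        rw [abs_mul]
        have : |a.divX.eval s| ≤ Ma := h3
        have h9 : |a.eval s + α| ≤ M + |α| := (abs_add_le _ _).trans (by linarith)
        exact mul_le_mul this h9 (abs_nonneg _) hMa0
      calc |6 * a.divX.eval s * ξ ^ 2 + 12 * b.divX.eval s * ξ - a.divX.eval s * (a.eval s + α)|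
          ≤ |6 * a.divX.eval s * ξ ^ 2 + 12 * b.divX.eval s * ξ|
            + |a.divX.eval s * (a.eval s + α)| := abs_sub _ _
        _ ≤ |6 * a.divX.eval s * ξ ^ 2| + |12 * b.divX.eval s * ξ|
            + |a.divX.eval s * (a.eval s + α)| := by
          have := abs_add_le (6 * a.divX.eval s * ξ ^ 2) (12 * b.divX.eval s * ξ); linarith
        _ ≤ C₁ := by rw [hC₁]; linarith
    have hsmall : |u5hPhi a b 0 ξ| < m := by
      rw [hξ, zero_sub, abs_neg] at hpert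
      have : |s| * C₁ ≤ |s| * (C₁ + 1) := by
        refine mul_le_mul_of_nonneg_left (by linarith) (abs_nonneg _)
      linarith
    -- so ξ is near a root
    have hnear : ∃ r ∈ R, |ξ - r| < δ r := by
      by_contra hcon
      push Not at hcon
      have := hm ξ hξB hcon
      linarith
    obtain ⟨r, hr, hξr⟩ := hnear
    refine ⟨r, hr, ?_⟩
    have hlow := hδ r hr s ξ ((P r).eval s) (h8 r hr) hξr (h6 r hr)
    have hcp := hcrpos r hr
    have hid : (ξ - (P r).eval s) * u5hLam a b s ξ ((P r).eval s) = -(s ^ 11 * (Q r).eval s) := by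
      rw [← u5hPhi_sub, hξ, u5hPhi_eval, hQ r hr]
      simp
    have habs : |ξ - (P r).eval s| * cr r ≤ |s| ^ 11 * (|(Q r).eval 0| + 1) := by
      have e : |ξ - (P r).eval s| * |u5hLam a b s ξ ((P r).eval s)| =
          |s| ^ 11 * |(Q r).eval s| := by
        rw [← abs_mul, hid, abs_neg, abs_mul, abs_pow]
      have h10 : |ξ - (P r).eval s| * cr r ≤
          |ξ - (P r).eval s| * |u5hLam a b s ξ ((P r).eval s)| :=
        mul_le_mul_of_nonneg_left hlow (abs_nonneg _)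
      have h11 : |s| ^ 11 * |(Q r).eval s| ≤ |s| ^ 11 * (|(Q r).eval 0| + 1) :=
        mul_le_mul_of_nonneg_left (h7 r hr) (by positivity)
      linarith
    have hterm : (|(Q r).eval 0| + 1) / cr r ≤ C := by
      rw [hC]
      refine Finset.single_le_sum (f := fun r => (|(Q r).eval 0| + 1) / cr r) (fun r' hr' => ?_) hr
      have := hcrpos r' hr'
      positivity
    calc |ξ - (P r).eval s| = |ξ - (P r).eval s| * cr r / cr r := by field_simp
      _ ≤ |s| ^ 11 * (|(Q r).eval 0| + 1) / cr r := by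
        exact div_le_div_of_nonneg_right habs hcp.le
      _ = (|(Q r).eval 0| + 1) / cr r * |s| ^ 11 := by ring
      _ ≤ C * |s| ^ 11 := mul_le_mul_of_nonneg_right hterm (by positivity)
  obtain ⟨s₀, hs₀, h⟩ := Metric.eventually_nhds_iff.mp hev
  refine ⟨R, P, s₀, C, hs₀, hC0, hRcard, fun r hr => ?_, fun s hs ξ hξ => ?_⟩
  · have := hPdeg r hr; omega
  · exact h (by rwa [Real.dist_eq, sub_zero]) ξ hξ

end Fermat.Agent.U5
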