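/-
Program U (S52), leaf (H) = HIT-root.  Part 5: the real branches at infinity.  For real polynomials `A, B` of
degree `≤ 20, 30` with nondegenerate leading coefficients, every real root `x` of
`3x⁴ + 6A(t)x² + 12B(t)x - A(t)²` with `t` large is within `C / t` of one of at most four polynomial curves
`x = Q_r(t)` of degree `≤ 10`.  Mathlib only.
-/
import Mathlib
import Fermat.Agent.U5.Hit.Local

set_option autoImplicit false

open Polynomial Finset

namespace Fermat.Agent.U5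

theorem u5h_reflect_eval (f : ℝ[X]) (n : ℕ) (hf : f.natDegree ≤ n) (t : ℝ) (ht : t ≠ 0) :
    (f.reflect n).eval t⁻¹ * t ^ n = f.eval t := by
  let _ := invertibleOfNonzero ht
  have h := eval₂_reflect_mul_pow (RingHom.id ℝ) t n f hf
  rw [invOf_eq_inv] at h
  simpa [eval₂_id] using h

theorem u5h_simple_of_disc (α β : ℝ) (h : 4 * α ^ 3 + 27 * β ^ 2 ≠ 0) (r : ℝ)
    (h0 : 3 * r ^ 4 + 6 * α * r ^ 2 + 12 * β * r - α ^ 2 = 0) :
    12 * r ^ 3 + 12 * α * r + 12 * β ≠ 0 := by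
  intro h1
  have hg : 3 * r ^ 2 + α = 0 := by
    have h2 : (3 * r ^ 2 + α) ^ 2 = 0 := by linear_combination r * h1 - h0
    exact (pow_eq_zero_iff two_ne_zero).mp h2
  apply h
  linear_combination ((-18 * α * r + 27 * β) / 12) * h1 +
    (6 * α * r ^ 2 - 9 * β * r + 4 * α ^ 2) * hg

/-- **Branches at infinity.** -/
theorem u5h_branches (A B : ℝ[X]) (hA : A.natDegree ≤ 20) (hB : B.natDegree ≤ 30)
    (hdisc : 4 * A.coeff 20 ^ 3 + 27 * B.coeff 30 ^ 2 ≠ 0) :
    ∃ (R : Finset ℝ) (Q : ℝ → ℝ[X]) (T₁ C : ℝ), 1 ≤ T₁ ∧ 0 ≤ C ∧ R.card ≤ 4 ∧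
      (∀ r ∈ R, (Q r).natDegree ≤ 10) ∧
      ∀ t : ℝ, T₁ < t → ∀ x : ℝ,
        3 * x ^ 4 + 6 * A.eval t * x ^ 2 + 12 * B.eval t * x - A.eval t ^ 2 = 0 →
        ∃ r ∈ R, |x - (Q r).eval t| ≤ C / t := by
  set a := A.reflect 20 with ha
  set b := B.reflect 30 with hb
  have ha0 : a.eval 0 = A.coeff 20 := by
    rw [← coeff_zero_eq_eval_zero, ha, coeff_reflect, revAt_zero]
  have hb0 : b.eval 0 = B.coeff 30 := by
    rw [← coeff_zero_eq_eval_zero, hb, coeff_reflect, revAt_zero]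
  have hsimple : ∀ r : ℝ, u5hPhi a b 0 r = 0 →
      12 * r ^ 3 + 12 * a.eval 0 * r + 12 * b.eval 0 ≠ 0 := by
    intro r h0
    rw [ha0, hb0]
    refine u5h_simple_of_disc _ _ hdisc r ?_
    have h1 := h0
    unfold u5hPhi at h1
    rw [ha0, hb0] at h1
    exact h1
  obtain ⟨R, P, s₀, C, hs₀, hC, hR, hP, hloc⟩ := u5h_localise a b hsimple
  refine ⟨R, fun r => (P r).reflect 10, max 1 (1 / s₀), C, le_max_left _ _, hC, hR, ?_, ?_⟩
  · intro r hr
    exact natDegree_reflect_le.trans (max_le le_rfl (hP r hr))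
  · intro t ht x hx
    have ht1 : 1 < t := lt_of_le_of_lt (le_max_left _ _) ht
    have ht0 : 0 < t := by linarith
    have hts : 1 / s₀ < t := lt_of_le_of_lt (le_max_right _ _) ht
    set s : ℝ := t⁻¹ with hs
    have hs0 : 0 < s := inv_pos.mpr ht0
    have hst : s * t = 1 := inv_mul_cancel₀ ht0.ne'
    have hss : |s| < s₀ := by
      rw [abs_of_pos hs0, hs, inv_lt_comm₀ ht0 hs₀]
      simpa [one_div] using hts
    have h1 := u5h_reflect_eval A 20 hA t ht0.ne'
    have h2 := u5h_reflect_eval B 30 hB t ht0.ne'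
    rw [← ha, ← hs] at h1
    rw [← hb, ← hs] at h2
    have hst20 : s ^ 20 * t ^ 20 = 1 := by rw [← mul_pow, hst, one_pow]
    have hst30 : s ^ 30 * t ^ 30 = 1 := by rw [← mul_pow, hst, one_pow]
    have hst10 : s ^ 10 * t ^ 10 = 1 := by rw [← mul_pow, hst, one_pow]
    have h1' : a.eval s = A.eval t * s ^ 20 := by
      rw [← h1]; linear_combination (-(a.eval s)) * hst20
    have h2' : b.eval s = B.eval t * s ^ 30 := by
      rw [← h2]; linear_combination (-(b.eval s)) * hst30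
    have hphi : u5hPhi a b s (x * s ^ 10) = 0 := by
      unfold u5hPhi
      rw [h1', h2']
      linear_combination s ^ 40 * hx
    obtain ⟨r, hr, hbound⟩ := hloc s hss _ hphi
    refine ⟨r, hr, ?_⟩
    have hdeg : ((P r).reflect 10).natDegree ≤ 10 :=
      natDegree_reflect_le.trans (max_le le_rfl (hP r hr))
    have h3 := u5h_reflect_eval ((P r).reflect 10) 10 hdeg t ht0.ne'
    rw [reflect_reflect, ← hs] at h3
    have h4 : x - ((P r).reflect 10).eval t = (x * s ^ 10 - (P r).eval s) * t ^ 10 := by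
      rw [← h3]; linear_combination (-x) * hst10
    rw [h4, abs_mul, abs_of_pos (pow_pos ht0 10)]
    have h5 : C * |s| ^ 11 * t ^ 10 = C / t := by
      rw [abs_of_pos hs0, div_eq_mul_inv, ← hs]
      linear_combination (C * s) * hst10
    calc |x * s ^ 10 - (P r).eval s| * t ^ 10 ≤ C * |s| ^ 11 * t ^ 10 :=
          mul_le_mul_of_nonneg_right hbound (pow_pos ht0 10).le
      _ = C / t := h5

end Fermat.Agent.U5
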