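/-
Program U (S52), leaf (H) = HIT-root.  Part 6: the tailored Hilbert irreducibility statement.
`A, B ∈ ℚ[X]` of degree `≤ 20, 30` with nondegenerate leading coefficients, integral values on `Nℤ`; if
`3P⁴ + 6AP² + 12BP - A² = 0` has no solution `P ∈ ℚ[X]` then for arbitrarily large `t ∈ Nℤ` the quartic
`3x⁴ + 6A(t)x² + 12B(t)x - A(t)²` has no rational root.  Mathlib only.
-/
import Mathlib
import Fermat.Agent.U5.Hit.Branch
import Fermat.Agent.U5.Hit.Curve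

set_option autoImplicit false
set_option linter.unusedSimpArgs false

open Polynomial Finset

namespace Fermat.Agent.U5

/-- a rational root `x` of `3x⁴ + 6αx² + 12βx - α²` (`α, β ∈ ℤ`) has `3x ∈ ℤ`. -/
theorem u5h_int_root (α β : ℤ) (x : ℚ)
    (h : 3 * x ^ 4 + 6 * (α : ℚ) * x ^ 2 + 12 * (β : ℚ) * x - (α : ℚ) ^ 2 = 0) :
    ∃ y : ℤ, (y : ℚ) = 3 * x := by
  set p : ℤ[X] := X ^ 4 + (C (18 * α) * X ^ 2 + C (108 * β) * X - C (27 * α ^ 2)) with hp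
  have hmonic : p.Monic := by
    rw [hp]
    refine monic_X_pow_add ?_
    refine lt_of_le_of_lt (degree_le_of_natDegree_le (n := 2) ?_) (by norm_num)
    compute_degree
  have hr : aeval (3 * x) p = 0 := by
    simp only [hp, map_add, map_sub, map_mul, map_pow, aeval_X, map_ofNat, aeval_C, eq_intCast,
      map_intCast, Int.cast_mul, Int.cast_pow, Int.cast_ofNat]
    linear_combination 27 * h
  obtain ⟨y, hy⟩ := isInteger_of_is_root_of_monic hmonic hr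
  exact ⟨y, by simpa using hy⟩

/-- degree bound for the quartic expression in a polynomial of degree `≤ 10`. -/
theorem u5h_natDegree_quartic (A B P : ℚ[X]) (hA : A.natDegree ≤ 20) (hB : B.natDegree ≤ 30)
    (hP : P.natDegree ≤ 10) :
    (3 * P ^ 4 + 6 * A * P ^ 2 + 12 * B * P - A ^ 2).natDegree ≤ 40 := by
  have h3 : (3 : ℚ[X]).natDegree = 0 := natDegree_ofNat 3
  have h6 : (6 : ℚ[X]).natDegree = 0 := natDegree_ofNat 6
  have h12 : (12 : ℚ[X]).natDegree = 0 := natDegree_ofNat 12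
  have hP4 : (P ^ 4).natDegree ≤ 40 := natDegree_pow_le.trans (by omega)
  have hP2 : (P ^ 2).natDegree ≤ 20 := natDegree_pow_le.trans (by omega)
  have hA2 : (A ^ 2).natDegree ≤ 40 := natDegree_pow_le.trans (by omega)
  have t1 : (3 * P ^ 4).natDegree ≤ 40 := natDegree_mul_le.trans (by omega)
  have t2 : (6 * A * P ^ 2).natDegree ≤ 40 := by
    refine natDegree_mul_le.trans ?_
    have : (6 * A).natDegree ≤ 20 := natDegree_mul_le.trans (by omega)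
    omega
  have t3 : (12 * B * P).natDegree ≤ 40 := by
    refine natDegree_mul_le.trans ?_
    have : (12 * B).natDegree ≤ 30 := natDegree_mul_le.trans (by omega)
    omega
  refine (natDegree_sub_le _ _).trans (max_le ?_ hA2)
  refine (natDegree_add_le _ _).trans (max_le ?_ t3)
  exact (natDegree_add_le _ _).trans (max_le t1 t2)

/-- **Leaf (H)**: the tailored Hilbert irreducibility statement. -/
theorem u5h_hit (A B : ℚ[X]) (hA : A.natDegree ≤ 20) (hB : B.natDegree ≤ 30)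
    (hdisc : 4 * A.coeff 20 ^ 3 + 27 * B.coeff 30 ^ 2 ≠ 0) (N : ℤ) (hN : 0 < N)
    (hint : ∀ t : ℤ, N ∣ t → (∃ α : ℤ, A.eval (t : ℚ) = α) ∧ ∃ β : ℤ, B.eval (t : ℚ) = β)
    (hroot : ¬ ∃ P : ℚ[X], 3 * P ^ 4 + 6 * A * P ^ 2 + 12 * B * P - A ^ 2 = 0) (T₀ : ℤ) :
    ∃ t : ℤ, N ∣ t ∧ T₀ ≤ t ∧ ∀ x : ℚ,
      3 * x ^ 4 + 6 * A.eval (t : ℚ) * x ^ 2 + 12 * B.eval (t : ℚ) * x - A.eval (t : ℚ) ^ 2 ≠ 0 := by
  by_contra hcon
  have hall : ∀ t : ℤ, N ∣ t → T₀ ≤ t → ∃ x : ℚ,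
      3 * x ^ 4 + 6 * A.eval (t : ℚ) * x ^ 2 + 12 * B.eval (t : ℚ) * x - A.eval (t : ℚ) ^ 2 = 0 := by
    intro t h1 h2
    by_contra h3
    exact hcon ⟨t, h1, h2, fun x hx => h3 ⟨x, hx⟩⟩
  -- the real polynomials
  set Ar : ℝ[X] := A.map (algebraMap ℚ ℝ) with hAr
  set Br : ℝ[X] := B.map (algebraMap ℚ ℝ) with hBr
  have hArd : Ar.natDegree ≤ 20 := natDegree_map_le.trans hA
  have hBrd : Br.natDegree ≤ 30 := natDegree_map_le.trans hB
  have hdiscr : 4 * Ar.coeff 20 ^ 3 + 27 * Br.coeff 30 ^ 2 ≠ 0 := by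
    rw [hAr, hBr, coeff_map, coeff_map, eq_ratCast, eq_ratCast]
    have h1 : ((4 * A.coeff 20 ^ 3 + 27 * B.coeff 30 ^ 2 : ℚ) : ℝ) ≠ 0 := by exact_mod_cast hdisc
    push_cast at h1
    exact h1
  obtain ⟨R, Q, T₁, C, hT₁, hC, hRcard, hQdeg, hbr⟩ := u5h_branches Ar Br hArd hBrd hdiscr
  -- `N` as a natural number
  obtain ⟨Nn, rfl⟩ : ∃ n : ℕ, N = (n : ℤ) := ⟨N.toNat, (Int.toNat_of_nonneg hN.le).symm⟩
  have hNn : 0 < Nn := by exact_mod_cast hN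
  have hNr : (1 : ℝ) ≤ (Nn : ℝ) := by exact_mod_cast hNn
  -- the threshold
  set K : ℝ := (1 + 11 * 163 ^ 10) * 163 ^ 110 with hK
  have hKpos : 0 < K := by positivity
  obtain ⟨n₀, hn₀⟩ := exists_nat_gt (max (max (T₀ : ℝ) T₁) (3 * C * K))
  set m₀ : ℕ := n₀ + 1 with hm₀
  have hm₀pos : (0 : ℝ) < (m₀ : ℝ) := by rw [hm₀]; positivity
  have hbig : (n₀ : ℝ) < (Nn : ℝ) * (m₀ : ℝ) := by
    have : (m₀ : ℝ) = (n₀ : ℝ) + 1 := by rw [hm₀]; push_cast; ring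
    nlinarith
  have hT₀ : (T₀ : ℝ) < (Nn : ℝ) * (m₀ : ℝ) :=
    lt_of_le_of_lt ((le_max_left _ _).trans (le_max_left _ _)) (hn₀.trans hbig)
  have hT₁' : T₁ < (Nn : ℝ) * (m₀ : ℝ) :=
    lt_of_le_of_lt ((le_max_right _ _).trans (le_max_left _ _)) (hn₀.trans hbig)
  have hCK : 3 * C * K < (Nn : ℝ) * (m₀ : ℝ) :=
    lt_of_le_of_lt (le_max_right _ _) (hn₀.trans hbig)
  set ε : ℝ := 3 * C / ((Nn : ℝ) * (m₀ : ℝ)) with hε
  have hden : 0 < (Nn : ℝ) * (m₀ : ℝ) := by positivity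
  have hsmall : ε * (1 + 11 * 163 ^ 10) * 163 ^ 110 < 1 := by
    rw [mul_assoc, ← hK, hε, div_mul_eq_mul_div, div_lt_one hden]
    exact hCK
  -- for every `m ≥ m₀` : an integer `y` and a branch `r`
  have key : ∀ m : ℤ, (m₀ : ℤ) ≤ m → ∃ y : ℤ, ∃ r : ℝ, r ∈ R ∧
      (3 * ((y : ℚ) / 3) ^ 4 + 6 * A.eval ((((Nn : ℤ) * m : ℤ)) : ℚ) * ((y : ℚ) / 3) ^ 2 +
        12 * B.eval ((((Nn : ℤ) * m : ℤ)) : ℚ) * ((y : ℚ) / 3) -
        A.eval ((((Nn : ℤ) * m : ℤ)) : ℚ) ^ 2 = 0) ∧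
      |(y : ℝ) - (Polynomial.C 3 * Q r).eval ((Nn : ℝ) * (m : ℝ))| ≤ ε := by
    intro m hm
    have hmr : (m₀ : ℝ) ≤ (m : ℝ) := by exact_mod_cast hm
    have htm : (Nn : ℝ) * (m₀ : ℝ) ≤ (Nn : ℝ) * (m : ℝ) :=
      mul_le_mul_of_nonneg_left hmr (by positivity)
    have hdvd : ((Nn : ℤ)) ∣ (Nn : ℤ) * m := dvd_mul_right _ _
    have hT : T₀ ≤ (Nn : ℤ) * m := by
      have : (T₀ : ℝ) ≤ (((Nn : ℤ) * m : ℤ) : ℝ) := by push_cast; linarith
      exact_mod_cast this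
    obtain ⟨x, hx⟩ := hall _ hdvd hT
    obtain ⟨⟨α, hα⟩, ⟨β, hβ⟩⟩ := hint _ hdvd
    rw [hα, hβ] at hx
    obtain ⟨y, hy⟩ := u5h_int_root α β x hx
    have hxy : x = (y : ℚ) / 3 := by rw [hy]; ring
    -- the real root
    have hAe : Ar.eval ((Nn : ℝ) * (m : ℝ)) = (α : ℝ) := by
      have h1 := u5h_eval_map_cast A ((((Nn : ℤ) * m : ℤ)) : ℚ)
      rw [hα] at h1
      push_cast at h1
      rw [hAr]; exact h1
    have hBe : Br.eval ((Nn : ℝ) * (m : ℝ)) = (β : ℝ) := by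
      have h1 := u5h_eval_map_cast B ((((Nn : ℤ) * m : ℤ)) : ℚ)
      rw [hβ] at h1
      push_cast at h1
      rw [hBr]; exact h1
    have hxr : 3 * (x : ℝ) ^ 4 + 6 * Ar.eval ((Nn : ℝ) * (m : ℝ)) * (x : ℝ) ^ 2 +
        12 * Br.eval ((Nn : ℝ) * (m : ℝ)) * (x : ℝ) - Ar.eval ((Nn : ℝ) * (m : ℝ)) ^ 2 = 0 := by
      rw [hAe, hBe]
      have h1 : ((3 * x ^ 4 + 6 * (α : ℚ) * x ^ 2 + 12 * (β : ℚ) * x - (α : ℚ) ^ 2 : ℚ) : ℝ) = 0 := by
        rw [hx]; norm_num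
      push_cast at h1
      exact h1
    have htT : T₁ < (Nn : ℝ) * (m : ℝ) := lt_of_lt_of_le hT₁' htm
    obtain ⟨r, hr, hbound⟩ := hbr _ htT _ hxr
    refine ⟨y, r, hr, ?_, ?_⟩
    · rw [← hxy, hα, hβ]; exact hx
    · have hyr : (y : ℝ) = 3 * (x : ℝ) := by
        have : ((y : ℚ) : ℝ) = ((3 * x : ℚ) : ℝ) := by rw [hy]
        push_cast at this
        exact this
      rw [eval_mul, eval_C, hyr, ← mul_sub, abs_mul, abs_of_pos (by norm_num : (0 : ℝ) < 3)]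
      have htpos : 0 < (Nn : ℝ) * (m : ℝ) := lt_of_lt_of_le hden htm
      have h2 : C / ((Nn : ℝ) * (m : ℝ)) ≤ C / ((Nn : ℝ) * (m₀ : ℝ)) :=
        div_le_div_of_nonneg_left hC hden htm
      rw [hε]
      calc 3 * |(x : ℝ) - (Q r).eval ((Nn : ℝ) * (m : ℝ))| ≤ 3 * (C / ((Nn : ℝ) * (m : ℝ))) := by
            linarith
        _ ≤ 3 * (C / ((Nn : ℝ) * (m₀ : ℝ))) := by linarith
        _ = 3 * C / ((Nn : ℝ) * (m₀ : ℝ)) := by ring
  choose! y r hyr using key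
  -- the window and the pigeonhole principle
  set W : Finset ℤ := Finset.Icc (m₀ : ℤ) ((m₀ : ℤ) + 163) with hW
  have hWcard : #W = 164 := by
    rw [hW, Int.card_Icc]
    have : (m₀ : ℤ) + 163 + 1 - (m₀ : ℤ) = 164 := by ring
    rw [this]; rfl
  have hWmem : ∀ m ∈ W, (m₀ : ℤ) ≤ m ∧ m ≤ (m₀ : ℤ) + 163 := fun m hm => Finset.mem_Icc.mp hm
  have hmaps : ∀ m ∈ W, r m ∈ R := fun m hm => (hyr m (hWmem m hm).1).1
  have hcard : #R * 40 < #W := by rw [hWcard]; omega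
  obtain ⟨r₀, hr₀, hfib⟩ := Finset.exists_lt_card_fiber_of_mul_lt_card_of_maps_to hmaps hcard
  set S' : Finset ℤ := {m ∈ W | r m = r₀} with hS'
  have hS'mem : ∀ m ∈ S', m ∈ W ∧ r m = r₀ := fun m hm => Finset.mem_filter.mp hm
  obtain ⟨S, hSS', hScard⟩ := Finset.exists_subset_card_eq (s := S') (n := 11) (by omega)
  -- the interpolant
  set Qint : ℚ[X] := Lagrange.interpolate S (fun j : ℤ => (Nn : ℚ) * ((id j : ℤ) : ℚ))
    (fun j => (y j : ℚ)) with hQint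
  have hG : (Polynomial.C 3 * Q r₀).natDegree ≤ 10 :=
    (natDegree_C_mul_le _ _).trans (hQdeg r₀ hr₀)
  have hwin : ∀ i ∈ S', ∀ j ∈ S', |i - j| ≤ 163 := by
    intro i hi j hj
    have h1 := hWmem i (hS'mem i hi).1
    have h2 := hWmem j (hS'mem j hj).1
    rw [abs_le]; constructor <;> linarith
  have hclose : ∀ k ∈ S', |(y k : ℝ) - (Polynomial.C 3 * Q r₀).eval ((Nn : ℝ) * ((id k : ℤ) : ℝ))| ≤ ε := by
    intro k hk
    have h1 := hyr k (hWmem k (hS'mem k hk).1).1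
    rw [(hS'mem k hk).2] at h1
    exact h1.2.2
  have hon : ∀ ms ∈ S', Qint.eval ((Nn : ℚ) * (ms : ℚ)) = (y ms : ℚ) := by
    intro ms hms
    exact u5h_on_curve S hScard id (Set.injOn_id _) Nn hNn y ms (y ms)
      (fun j hj => hwin ms hms j (hSS' hj)) (fun i hi j hj => hwin i (hSS' hi) j (hSS' hj))
      (Polynomial.C 3 * Q r₀) hG ε (fun k hk => hclose k (hSS' hk)) (hclose ms hms) hsmall
  -- the polynomial root
  set Pq : ℚ[X] := Polynomial.C (1 / 3 : ℚ) * Qint with hPq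
  have hQintdeg : Qint.natDegree ≤ 10 := by
    have hv : Set.InjOn (fun j : ℤ => (Nn : ℚ) * ((id j : ℤ) : ℚ)) S := by
      intro a _ b _ hab
      have hNq : (Nn : ℚ) ≠ 0 := by exact_mod_cast hNn.ne'
      have : ((a : ℤ) : ℚ) = ((b : ℤ) : ℚ) := mul_left_cancel₀ hNq hab
      exact_mod_cast this
    have hdeg := Lagrange.degree_interpolate_lt (r := fun j => (y j : ℚ)) hv
    rw [hScard] at hdeg
    by_cases h0 : Qint = 0
    · rw [h0]; simp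
    · have := (natDegree_lt_iff_degree_lt h0).mpr hdeg
      omega
  have hPqdeg : Pq.natDegree ≤ 10 := (natDegree_C_mul_le _ _).trans hQintdeg
  apply hroot
  refine ⟨Pq, ?_⟩
  refine eq_zero_of_natDegree_lt_card_of_eval_eq_zero' _
    (S'.image (fun m : ℤ => (Nn : ℚ) * (m : ℚ))) ?_ ?_
  · intro i hi
    obtain ⟨ms, hms, rfl⟩ := Finset.mem_image.mp hi
    have h1 := (hyr ms (hWmem ms (hS'mem ms hms).1).1).2.1
    have h2 : Pq.eval ((Nn : ℚ) * (ms : ℚ)) = (y ms : ℚ) / 3 := by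
      rw [hPq, eval_mul, eval_C, hon ms hms]; ring
    have h3 : ((((Nn : ℤ) * ms : ℤ)) : ℚ) = (Nn : ℚ) * (ms : ℚ) := by push_cast; ring
    rw [h3] at h1
    simp only [eval_sub, eval_add, eval_mul, eval_pow, eval_ofNat, h2]
    exact h1
  · have hinj : Function.Injective (fun m : ℤ => (Nn : ℚ) * (m : ℚ)) := by
      intro a b hab
      have hNq : (Nn : ℚ) ≠ 0 := by exact_mod_cast hNn.ne'
      have : ((a : ℤ) : ℚ) = ((b : ℤ) : ℚ) := mul_left_cancel₀ hNq hab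
      exact_mod_cast this
    rw [Finset.card_image_of_injective _ hinj]
    exact lt_of_le_of_lt (u5h_natDegree_quartic A B Pq hA hB hPqdeg) hfib

end Fermat.Agent.U5
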