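/-
Program U (S52), leaf (H) = HIT-root.  Part 2: Lagrange interpolation on integer nodes:
explicit evaluation formula, a size bound, and an integrality statement.  Mathlib only.
-/
import Mathlib

set_option autoImplicit false

open Polynomial Finset

namespace Fermat.Agent.U5

variable {ι : Type*} [DecidableEq ι]

/-- Evaluation of the Lagrange basis polynomial. -/
theorem u5h_eval_basis {F : Type*} [Field F] (S : Finset ι) (v : ι → F) (i : ι) (x : F) :
    (Lagrange.basis S v i).eval x = ∏ j ∈ S.erase i, ((x - v j) / (v i - v j)) := by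
  rw [Lagrange.basis, eval_prod]
  refine Finset.prod_congr rfl fun j _ => ?_
  simp only [Lagrange.basisDivisor, eval_mul, eval_C, eval_sub, eval_X]
  rw [div_eq_mul_inv, mul_comm]

/-- A polynomial of degree `< #S` is recovered from its values at the nodes. -/
theorem u5h_lagrange_eval {F : Type*} [Field F] (S : Finset ι) (v : ι → F) (hv : Set.InjOn v S)
    (E : F[X]) (hE : E.degree < #S) (x : F) :
    E.eval x = ∑ i ∈ S, E.eval (v i) * ∏ j ∈ S.erase i, ((x - v j) / (v i - v j)) := by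
  conv_lhs => rw [Lagrange.eq_interpolate hv hE]
  rw [Lagrange.interpolate_apply, eval_finsetSum]
  refine Finset.sum_congr rfl fun i _ => ?_
  rw [eval_mul, eval_C, u5h_eval_basis]

/-- The same for the interpolant of arbitrary values. -/
theorem u5h_interpolate_eval {F : Type*} [Field F] (S : Finset ι) (v : ι → F) (r : ι → F) (x : F) :
    (Lagrange.interpolate S v r).eval x =
      ∑ i ∈ S, r i * ∏ j ∈ S.erase i, ((x - v j) / (v i - v j)) := by
  rw [Lagrange.interpolate_apply, eval_finsetSum]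
  refine Finset.sum_congr rfl fun i _ => ?_
  rw [eval_mul, eval_C, u5h_eval_basis]

/-- Nodes `c * m j` with integer `m j`: the basis weights only depend on the integers. -/
theorem u5h_weight_scale {F : Type*} [Field F] (S : Finset ι) (m : ι → ℤ) (c : F) (hc : c ≠ 0)
    (i : ι) (ms : ℤ) :
    ∏ j ∈ S.erase i, ((c * (ms : F) - c * (m j : F)) / (c * (m i : F) - c * (m j : F))) =
      ∏ j ∈ S.erase i, (((ms : F) - (m j : F)) / ((m i : F) - (m j : F))) := by
  refine Finset.prod_congr rfl fun j _ => ?_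
  rw [← mul_sub, ← mul_sub, mul_div_mul_left _ _ hc]

/-- Size bound for the weights on integer nodes in a window of width `ρ`. -/
theorem u5h_weight_bound (S : Finset ι) (m : ι → ℤ) (hm : Set.InjOn m S) (i : ι) (hi : i ∈ S)
    (ms : ℤ) (ρ : ℝ) (hρ : ∀ j ∈ S, |((ms : ℝ) - (m j : ℝ))| ≤ ρ) :
    |∏ j ∈ S.erase i, (((ms : ℝ) - (m j : ℝ)) / ((m i : ℝ) - (m j : ℝ)))| ≤ ρ ^ (#S - 1) := by
  rw [Finset.abs_prod, ← Finset.card_erase_of_mem hi, ← Finset.prod_const]
  refine Finset.prod_le_prod (fun j _ => abs_nonneg _) fun j hj => ?_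
  have hjS : j ∈ S := Finset.mem_of_mem_erase hj
  have hji : j ≠ i := Finset.ne_of_mem_erase hj
  have hne : m i ≠ m j := fun h => hji (hm hjS hi h.symm)
  have h1 : (1 : ℝ) ≤ |(m i : ℝ) - (m j : ℝ)| := by
    have : (1 : ℤ) ≤ |m i - m j| := Int.one_le_abs (sub_ne_zero.mpr hne)
    have h2 : ((1 : ℤ) : ℝ) ≤ ((|m i - m j| : ℤ) : ℝ) := by exact_mod_cast this
    simpa using h2
  rw [abs_div]
  calc |(ms : ℝ) - (m j : ℝ)| / |(m i : ℝ) - (m j : ℝ)|
      ≤ |(ms : ℝ) - (m j : ℝ)| / 1 := by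
        exact div_le_div_of_nonneg_left (abs_nonneg _) one_pos h1
    _ = |(ms : ℝ) - (m j : ℝ)| := div_one _
    _ ≤ ρ := hρ j hjS

/-- Real estimate: a polynomial of degree `< #S` that is small at the nodes `c * m j` is small at `c * ms`. -/
theorem u5h_interp_small (S : Finset ι) (m : ι → ℤ) (hm : Set.InjOn m S) (c : ℝ) (hc : c ≠ 0)
    (E : ℝ[X]) (hE : E.degree < #S) (ms : ℤ) (ρ ε : ℝ)
    (hρ : ∀ j ∈ S, |((ms : ℝ) - (m j : ℝ))| ≤ ρ)
    (hε : ∀ i ∈ S, |E.eval (c * (m i : ℝ))| ≤ ε) :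
    |E.eval (c * (ms : ℝ))| ≤ #S * (ε * ρ ^ (#S - 1)) := by
  have hv : Set.InjOn (fun j => c * (m j : ℝ)) S := by
    intro a ha b hb hab
    have : (m a : ℝ) = (m b : ℝ) := mul_left_cancel₀ hc hab
    exact hm ha hb (by exact_mod_cast this)
  rw [u5h_lagrange_eval S (fun j => c * (m j : ℝ)) hv E hE]
  refine le_trans (Finset.abs_sum_le_sum_abs _ _) ?_
  rw [← nsmul_eq_mul, ← Finset.sum_const]
  refine Finset.sum_le_sum fun i hi => ?_
  rw [abs_mul]
  have h1 := hε i hi
  have h2 : |∏ j ∈ S.erase i, ((c * (ms : ℝ) - c * (m j : ℝ)) / (c * (m i : ℝ) - c * (m j : ℝ)))|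
      ≤ ρ ^ (#S - 1) := by
    rw [u5h_weight_scale S m c hc i ms]
    exact u5h_weight_bound S m hm i hi ms ρ hρ
  have hε0 : 0 ≤ ε := le_trans (abs_nonneg _) h1
  exact mul_le_mul h1 h2 (abs_nonneg _) hε0

/-- The common denominator of the weights. -/
def u5hDen (S : Finset ι) (m : ι → ℤ) : ℤ := ∏ i ∈ S, ∏ j ∈ S.erase i, (m i - m j)

theorem u5hDen_ne_zero (S : Finset ι) (m : ι → ℤ) (hm : Set.InjOn m S) : u5hDen S m ≠ 0 := by
  rw [u5hDen]
  refine Finset.prod_ne_zero_iff.mpr fun i hi => Finset.prod_ne_zero_iff.mpr fun j hj => ?_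
  have hjS : j ∈ S := Finset.mem_of_mem_erase hj
  have hji : j ≠ i := Finset.ne_of_mem_erase hj
  exact sub_ne_zero.mpr fun h => hji (hm hjS hi h.symm)

theorem u5hDen_abs_le (S : Finset ι) (m : ι → ℤ) (ρ : ℤ) (hρ : ∀ i ∈ S, ∀ j ∈ S, |m i - m j| ≤ ρ) :
    |u5hDen S m| ≤ ρ ^ (#S * (#S - 1)) := by
  rw [u5hDen, Finset.abs_prod, pow_mul', ← Finset.prod_const]
  refine Finset.prod_le_prod (fun i _ => abs_nonneg _) fun i hi => ?_
  rw [Finset.abs_prod, ← Finset.card_erase_of_mem hi, ← Finset.prod_const]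
  refine Finset.prod_le_prod (fun j _ => abs_nonneg _) fun j hj => ?_
  exact hρ i hi j (Finset.mem_of_mem_erase hj)

/-- Integrality: the interpolant of integer values at the nodes `c * m j`, evaluated at `c * ms`,
has denominator dividing `u5hDen S m`. -/
theorem u5h_interp_den (S : Finset ι) (m : ι → ℤ) (hm : Set.InjOn m S) (c : ℚ) (hc : c ≠ 0)
    (y : ι → ℤ) (ms : ℤ) :
    ∃ z : ℤ, (u5hDen S m : ℚ) *
      (Lagrange.interpolate S (fun j => c * (m j : ℚ)) (fun j => (y j : ℚ))).eval (c * (ms : ℚ)) = z := by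
  rw [u5h_interpolate_eval, Finset.mul_sum]
  -- each term is an integer
  have hterm : ∀ i ∈ S, ∃ z : ℤ, (u5hDen S m : ℚ) * ((y i : ℚ) *
      ∏ j ∈ S.erase i, ((c * (ms : ℚ) - c * (m j : ℚ)) / (c * (m i : ℚ) - c * (m j : ℚ)))) = z := by
    intro i hi
    rw [u5h_weight_scale S m c hc i ms]
    have hsplit : u5hDen S m = (∏ j ∈ S.erase i, (m i - m j)) *
        ∏ i' ∈ S.erase i, ∏ j ∈ S.erase i', (m i' - m j) := by
      rw [u5hDen, Finset.mul_prod_erase S (fun i' => ∏ j ∈ S.erase i', (m i' - m j)) hi]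
    have hne : (∏ j ∈ S.erase i, ((m i : ℚ) - (m j : ℚ))) ≠ 0 := by
      refine Finset.prod_ne_zero_iff.mpr fun j hj => ?_
      have hjS : j ∈ S := Finset.mem_of_mem_erase hj
      have hji : j ≠ i := Finset.ne_of_mem_erase hj
      have : m i ≠ m j := fun h => hji (hm hjS hi h.symm)
      exact sub_ne_zero.mpr (by exact_mod_cast this)
    refine ⟨y i * (∏ j ∈ S.erase i, (ms - m j)) *
      ∏ i' ∈ S.erase i, ∏ j ∈ S.erase i', (m i' - m j), ?_⟩
    rw [hsplit, Finset.prod_div_distrib]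
    push_cast
    field_simp
  choose! z hz using hterm
  refine ⟨∑ i ∈ S, z i, ?_⟩
  push_cast
  exact Finset.sum_congr rfl fun i hi => hz i hi

end Fermat.Agent.U5
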