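/-
Program U (S52), leaf (H) = HIT-root.  Part 4: integer points that stay very close to a real polynomial
curve of degree `≤ 10` on 12 integer abscissae in a short window lie on a rational polynomial curve.
Mathlib only.
-/
import Mathlib
import Fermat.Agent.U5.Hit.Interp

set_option autoImplicit false

open Polynomial Finset

namespace Fermat.Agent.U5

variable {ι : Type*} [DecidableEq ι]

theorem u5h_eval_map_cast (Q : ℚ[X]) (q : ℚ) :
    (Q.map (algebraMap ℚ ℝ)).eval (q : ℝ) = ((Q.eval q : ℚ) : ℝ) := by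
  have : (q : ℝ) = algebraMap ℚ ℝ q := (eq_ratCast (algebraMap ℚ ℝ) q).symm
  rw [this, eval_map, eval₂_at_apply, eq_ratCast]

/-- If the integer points `(N m_k, y_k)`, `k ∈ S` (`#S = 11`), and `(N m_*, y_*)` are all within `ε` of a
real polynomial curve of degree `≤ 10`, the abscissae lie in a window of width `163`, and `ε` is small, then
`(N m_*, y_*)` lies on the rational interpolant through the 11 points. -/
theorem u5h_on_curve (S : Finset ι) (hS : #S = 11) (m : ι → ℤ) (hm : Set.InjOn m S)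
    (N : ℕ) (hN : 0 < N) (y : ι → ℤ) (ms ys : ℤ)
    (hρ : ∀ j ∈ S, |ms - m j| ≤ 163) (hρ' : ∀ i ∈ S, ∀ j ∈ S, |m i - m j| ≤ 163)
    (G : ℝ[X]) (hG : G.natDegree ≤ 10) (ε : ℝ)
    (hε : ∀ k ∈ S, |(y k : ℝ) - G.eval ((N : ℝ) * (m k : ℝ))| ≤ ε)
    (hεs : |(ys : ℝ) - G.eval ((N : ℝ) * (ms : ℝ))| ≤ ε)
    (hsmall : ε * (1 + 11 * 163 ^ 10) * 163 ^ 110 < 1) :
    (Lagrange.interpolate S (fun j => (N : ℚ) * (m j : ℚ)) (fun j => (y j : ℚ))).eval
      ((N : ℚ) * (ms : ℚ)) = ys := by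
  set Q := Lagrange.interpolate S (fun j => (N : ℚ) * (m j : ℚ)) (fun j => (y j : ℚ)) with hQ
  have hNq : (N : ℚ) ≠ 0 := by exact_mod_cast hN.ne'
  have hNr : (N : ℝ) ≠ 0 := by exact_mod_cast hN.ne'
  have hv : Set.InjOn (fun j => (N : ℚ) * (m j : ℚ)) S := by
    intro a ha b hb hab
    have : (m a : ℚ) = (m b : ℚ) := mul_left_cancel₀ hNq hab
    exact hm ha hb (by exact_mod_cast this)
  have hε0 : 0 ≤ ε := le_trans (abs_nonneg _) hεs
  -- the real error polynomial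
  set E : ℝ[X] := Q.map (algebraMap ℚ ℝ) - G with hE
  have hEdeg : E.degree < #S := by
    rw [hS]
    refine lt_of_le_of_lt (degree_sub_le _ _) (max_lt ?_ ?_)
    · refine lt_of_le_of_lt (degree_map_le) ?_
      have := Lagrange.degree_interpolate_lt (r := fun j => (y j : ℚ)) hv
      rwa [hS] at this
    · refine lt_of_le_of_lt degree_le_natDegree ?_
      have : (G.natDegree : WithBot ℕ) ≤ (10 : ℕ) := by exact_mod_cast hG
      exact lt_of_le_of_lt this (by norm_num)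
  have hEnode : ∀ k ∈ S, E.eval ((N : ℝ) * (m k : ℝ)) = (y k : ℝ) - G.eval ((N : ℝ) * (m k : ℝ)) := by
    intro k hk
    have h1 : Q.eval ((N : ℚ) * (m k : ℚ)) = (y k : ℚ) := by
      rw [hQ]; exact Lagrange.eval_interpolate_at_node (fun j => (y j : ℚ)) hv hk
    have h2 := u5h_eval_map_cast Q ((N : ℚ) * (m k : ℚ))
    rw [h1] at h2
    rw [hE, eval_sub]
    push_cast at h2
    rw [h2]
  have hEs : |E.eval ((N : ℝ) * (ms : ℝ))| ≤ #S * (ε * (163 : ℝ) ^ (#S - 1)) := by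
    refine u5h_interp_small S m hm (N : ℝ) hNr E hEdeg ms 163 ε ?_ ?_
    · intro j hj
      have := hρ j hj
      have h2 : ((|ms - m j| : ℤ) : ℝ) ≤ ((163 : ℤ) : ℝ) := by exact_mod_cast this
      simpa using h2
    · intro i hi
      rw [hEnode i hi]; exact hε i hi
  rw [hS] at hEs
  -- δ
  set δ : ℚ := (ys : ℚ) - Q.eval ((N : ℚ) * (ms : ℚ)) with hδ
  have hδreal : (δ : ℝ) = ((ys : ℝ) - G.eval ((N : ℝ) * (ms : ℝ))) - E.eval ((N : ℝ) * (ms : ℝ)) := by
    have h2 := u5h_eval_map_cast Q ((N : ℚ) * (ms : ℚ))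
    push_cast at h2
    rw [hδ, hE, eval_sub, h2]
    push_cast
    ring
  have hδabs : |(δ : ℝ)| ≤ ε * (1 + 11 * 163 ^ 10) := by
    rw [hδreal]
    have := abs_sub (((ys : ℝ) - G.eval ((N : ℝ) * (ms : ℝ)))) (E.eval ((N : ℝ) * (ms : ℝ)))
    have h3 : ((11 : ℕ) : ℝ) * (ε * (163 : ℝ) ^ (11 - 1)) = ε * (11 * 163 ^ 10) := by
      norm_num; ring
    rw [h3] at hEs
    linarith
  -- integrality
  obtain ⟨z, hz⟩ := u5h_interp_den S m hm (N : ℚ) hNq y ms
  set D := u5hDen S m with hD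
  have hDne : D ≠ 0 := u5hDen_ne_zero S m hm
  have hDabs : |D| ≤ 163 ^ 110 := by
    have := u5hDen_abs_le S m 163 hρ'
    rwa [hS] at this
  have hz' : (D : ℚ) * Q.eval ((N : ℚ) * (ms : ℚ)) = (z : ℚ) := hz
  have hint : (D : ℚ) * δ = ((D * ys - z : ℤ) : ℚ) := by
    rw [hδ, mul_sub, hz']; push_cast; ring
  have hzero : D * ys - z = 0 := by
    by_contra hne
    have h1 : (1 : ℝ) ≤ |((D * ys - z : ℤ) : ℝ)| := by
      have : (1 : ℤ) ≤ |D * ys - z| := Int.one_le_abs hne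
      have h2 : ((1 : ℤ) : ℝ) ≤ ((|D * ys - z| : ℤ) : ℝ) := by exact_mod_cast this
      simpa using h2
    have h2 : ((D * ys - z : ℤ) : ℝ) = (D : ℝ) * (δ : ℝ) := by
      have h9 : (((D : ℚ) * δ : ℚ) : ℝ) = (((D * ys - z : ℤ) : ℚ) : ℝ) := by rw [hint]
      push_cast at h9 ⊢
      linarith
    rw [h2, abs_mul] at h1
    have h3 : |(D : ℝ)| ≤ 163 ^ 110 := by
      have h4 : ((|D| : ℤ) : ℝ) ≤ ((163 : ℤ) : ℝ) ^ 110 := by
        rw [← Int.cast_pow]; exact Int.cast_le.mpr hDabs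
      rw [Int.cast_abs] at h4
      exact h4
    have h5 : |(D : ℝ)| * |(δ : ℝ)| ≤ 163 ^ 110 * (ε * (1 + 11 * 163 ^ 10)) :=
      mul_le_mul h3 hδabs (abs_nonneg _) (by positivity)
    nlinarith
  have hδ0 : δ = 0 := by
    rw [hzero] at hint
    have hDq : (D : ℚ) ≠ 0 := by exact_mod_cast hDne
    simpa [hDq] using hint
  rw [hδ] at hδ0
  linarith

end Fermat.Agent.U5
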